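import Fermat.Statements.S02

set_option autoImplicit false
open FreyPackage

namespace Fermat.Agent.S02

/-- The case where `b` is even and `gcd a b = 1`. -/
theorem of_b_even (a b c : ℤ) (ha : a ≠ 0) (hb : b ≠ 0) (hc : c ≠ 0) (hab : gcd a b = 1)
    (hb2 : (2 : ℤ) ∣ b) (p : ℕ) (pp : p.Prime) (hp5 : 5 ≤ p) (H : a ^ p + b ^ p = c ^ p) :
    Nonempty FreyPackage := by
  have hpodd : Odd p := pp.odd_of_ne_two (by omega)
  have ha_odd : ¬ (2 : ℤ) ∣ a := by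
    intro h2a
    have h : (2 : ℤ) ∣ gcd a b := dvd_gcd h2a hb2
    rw [hab] at h
    norm_num at h
  have hb2' : (b : ZMod 2) = 0 := (ZMod.intCast_zmod_eq_zero_iff_dvd b 2).2 hb2
  have ha4 : a % 4 = 1 ∨ a % 4 = 3 := by omega
  rcases ha4 with h1 | h3
  · refine ⟨⟨-a, -b, -c, neg_ne_zero.2 ha, neg_ne_zero.2 hb, neg_ne_zero.2 hc, p, pp, hp5,
      ?_, ?_, ?_, ?_⟩⟩
    · rw [hpodd.neg_pow, hpodd.neg_pow, hpodd.neg_pow, ← H]; ring
    · rw [gcd_neg, neg_gcd]; exact hab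
    · have h : ((-a : ℤ) : ZMod 4) = ((3 : ℤ) : ZMod 4) := by
        rw [ZMod.intCast_eq_intCast_iff_dvd_sub]
        omega
      simpa using h
    · simp [hb2']
  · refine ⟨⟨a, b, c, ha, hb, hc, p, pp, hp5, H, hab, ?_, hb2'⟩⟩
    have h : ((a : ℤ) : ZMod 4) = ((3 : ℤ) : ZMod 4) := by
      rw [ZMod.intCast_eq_intCast_iff_dvd_sub]
      omega
    simpa using h

/-- The coprime case. -/
theorem of_coprime (a b c : ℤ) (ha : a ≠ 0) (hb : b ≠ 0) (hc : c ≠ 0) (hab : gcd a b = 1)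
    (p : ℕ) (pp : p.Prime) (hp5 : 5 ≤ p) (H : a ^ p + b ^ p = c ^ p) :
    Nonempty FreyPackage := by
  have hpodd : Odd p := pp.odd_of_ne_two (by omega)
  have hp0 : 0 < p := by omega
  by_cases hb2 : (2 : ℤ) ∣ b
  · exact of_b_even a b c ha hb hc hab hb2 p pp hp5 H
  by_cases ha2 : (2 : ℤ) ∣ a
  · refine of_b_even b a c hb ha hc ?_ ha2 p pp hp5 ?_
    · rw [gcd_comm]; exact hab
    · rw [add_comm]; exact H
  · -- both odd, so c is even
    have hc2 : (2 : ℤ) ∣ c := by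
      have h1 : ¬ (2 : ℤ) ∣ a ^ p := fun h => ha2 (Int.prime_two.dvd_of_dvd_pow h)
      have h2 : ¬ (2 : ℤ) ∣ b ^ p := fun h => hb2 (Int.prime_two.dvd_of_dvd_pow h)
      have h3 : (2 : ℤ) ∣ c ^ p := by
        rw [← H]; omega
      exact Int.prime_two.dvd_of_dvd_pow h3
    refine of_b_even a (-c) (-b) ha (neg_ne_zero.2 hc) (neg_ne_zero.2 hb) ?_ (by simpa using hc2)
      p pp hp5 ?_
    · have h := FreyPackage.gcdab_eq_gcdac hp0 H
      rw [gcd_neg, ← h, hab]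
    · rw [hpodd.neg_pow, hpodd.neg_pow, ← H]; ring

theorem result (a b c : ℤ) (ha : a ≠ 0) (hb : b ≠ 0) (hc : c ≠ 0) (p : ℕ) (pp : p.Prime) (hp5 : 5 ≤ p) (H : a ^ p + b ^ p = c ^ p) : Nonempty FreyPackage := by
  have hp0 : p ≠ 0 := by omega
  -- divide out by the gcd
  obtain ⟨a', ha'⟩ : (gcd a b) ∣ a := gcd_dvd_left a b
  obtain ⟨b', hb'⟩ : (gcd a b) ∣ b := gcd_dvd_right a b
  set d : ℤ := gcd a b with hd
  have hd0 : d ≠ 0 := by
    intro h
    rw [h, zero_mul] at ha'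
    exact ha ha'
  have hdc : d ∣ c := by
    rw [← Int.pow_dvd_pow_iff hp0, ← H]
    exact dvd_add (pow_dvd_pow_of_dvd (gcd_dvd_left a b) p) (pow_dvd_pow_of_dvd (gcd_dvd_right a b) p)
  obtain ⟨c', hc'⟩ := hdc
  have ha'0 : a' ≠ 0 := by rintro rfl; exact ha (by rw [ha', mul_zero])
  have hb'0 : b' ≠ 0 := by rintro rfl; exact hb (by rw [hb', mul_zero])
  have hc'0 : c' ≠ 0 := by rintro rfl; exact hc (by rw [hc', mul_zero])
  have H' : a' ^ p + b' ^ p = c' ^ p := by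
    have h1 : d ^ p * (a' ^ p + b' ^ p) = d ^ p * c' ^ p := by
      rw [mul_add, ← mul_pow, ← mul_pow, ← mul_pow, ← ha', ← hb', ← hc', H]
    exact mul_left_cancel₀ (pow_ne_zero p hd0) h1
  have hgcd : gcd a' b' = 1 := by
    have h1 : gcd (d * a') (d * b') = normalize d * gcd a' b' := gcd_mul_left d a' b'
    rw [← ha', ← hb', ← hd] at h1
    have h2 : normalize d = d := by rw [hd]; exact normalize_gcd a b
    rw [h2] at h1
    have h3 : d * 1 = d * gcd a' b' := by rw [mul_one]; exact h1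
    exact (mul_left_cancel₀ hd0 h3).symm
  exact of_coprime a' b' c' ha'0 hb'0 hc'0 hgcd p pp hp5 H'

end Fermat.Agent.S02
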