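-- Statement S05: the mod-p Galois representation of the Frey curve is unramified at primes q ≠ 2, p.
-- Proof: Fermat/Agent/S05/ (S05 team library), assembled in Fermat/Agent/S05/Main.lean.
import Fermat.Statements.S05
import Fermat.Agent.S05.Main

set_option autoImplicit false
open WeierstrassCurve WeierstrassCurve.Affine WeierstrassCurve.Affine.Point
open CuspForm ModularFormClass UpperHalfPlane
open FreyPackage

namespace Fermat.Agent.S05

theorem result (P : FreyPackage) {q : ℕ} (hq : q.Prime) (hq2 : q ≠ 2) (hqp : q ≠ P.p) : P.GaloisRepUnramifiedAt q := by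
  exact frey_unramified P hq hq2 hqp

end Fermat.Agent.S05
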