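import Fermat.Statements.S07
import Fermat.Prelude.Thm_ModularForm_sturm_bound_Gamma0
import Fermat.Prelude.Thm_CongruenceSubgroup_one_mem_strictPeriods_Gamma0

set_option autoImplicit false
open WeierstrassCurve WeierstrassCurve.Affine WeierstrassCurve.Affine.Point
open CuspForm ModularFormClass UpperHalfPlane
open ModularForm

namespace Fermat.Agent.S07

open scoped MatrixGroups

/-- The action of `SL(2, ℤ)` on `(ℤ/2)²` through reduction modulo `2`. -/
@[reducible] def sl2ActionModTwo : MulAction SL(2, ℤ) (Fin 2 → ZMod 2) where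
  smul g v := Matrix.mulVec (g.1.map (Int.castRingHom (ZMod 2))) v
  one_smul v := by
    change Matrix.mulVec ((1 : SL(2, ℤ)).1.map (Int.castRingHom (ZMod 2))) v = v
    rw [Matrix.SpecialLinearGroup.coe_one, Matrix.map_one _ (_root_.map_zero _) (_root_.map_one _),
      Matrix.one_mulVec]
  mul_smul g h v := by
    change Matrix.mulVec ((g * h).1.map (Int.castRingHom (ZMod 2))) v =
      Matrix.mulVec (g.1.map (Int.castRingHom (ZMod 2)))
        (Matrix.mulVec (h.1.map (Int.castRingHom (ZMod 2))) v)
    rw [Matrix.SpecialLinearGroup.coe_mul, Matrix.map_mul, Matrix.mulVec_mulVec]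

theorem index_Gamma0_two_le_four : (CongruenceSubgroup.Gamma0 2).index ≤ 4 := by
  let _act := sl2ActionModTwo
  have hle : MulAction.stabilizer SL(2, ℤ) (![1, 0] : Fin 2 → ZMod 2) ≤
      CongruenceSubgroup.Gamma0 2 := by
    intro g hg
    rw [MulAction.mem_stabilizer_iff] at hg
    have h1 := congrFun hg 1
    change Matrix.mulVec (g.1.map (Int.castRingHom (ZMod 2))) ![1, 0] 1 = _ at h1
    rw [CongruenceSubgroup.Gamma0_mem]
    simpa [Matrix.mulVec, dotProduct, Fin.sum_univ_two] using h1
  have hdvd := Subgroup.index_dvd_of_le hle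
  rw [MulAction.index_stabilizer] at hdvd
  have hcard : (MulAction.orbit SL(2, ℤ) (![1, 0] : Fin 2 → ZMod 2)).ncard ≤ 4 := by
    calc (MulAction.orbit SL(2, ℤ) (![1, 0] : Fin 2 → ZMod 2)).ncard
        ≤ Nat.card (Fin 2 → ZMod 2) := Set.ncard_le_card _
      _ = 4 := by simp
  have hpos : 0 < (MulAction.orbit SL(2, ℤ) (![1, 0] : Fin 2 → ZMod 2)).ncard := by
    rw [Set.ncard_pos (Set.toFinite _)]
    exact MulAction.nonempty_orbit _
  exact (Nat.le_of_dvd hpos hdvd).trans hcard

theorem result (f : CuspForm (CongruenceSubgroup.Gamma0 2) 2) : f = 0 := by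
  have hg : ModularFormClass.modularForm f = 0 :=
    ModularForm.sturm_bound_Gamma0 2 (ModularFormClass.modularForm f) (by
      intro n hn
      have hidx := index_Gamma0_two_le_four
      have hn0 : n = 0 := by
        have h2 : ((2 : ℤ) * ((CongruenceSubgroup.Gamma0 2).index : ℤ)).toNat / 12 = 0 := by
          apply Nat.div_eq_of_lt
          omega
        omega
      subst hn0
      exact CuspFormClass.qExpansion_coeff_zero f one_pos
        (CongruenceSubgroup.one_mem_strictPeriods_Gamma0 2))
  ext z
  have := DFunLike.congr_fun hg z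
  simpa using this

end Fermat.Agent.S07
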