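-- Statement S10 (row 9): FreyPackage.frey_no_cofixed_small.
-- Proof: a Frey package with `p ∈ {5, 7, 13}` contains a coprime nonzero integer solution of
-- `a ^ p + b ^ p = c ^ p`, which is impossible by Fermat's Last Theorem for the regular primes
-- 5, 7, 13 (Sophie Germain for the first case, Kummer's descent in the principal ideal domain
-- `ℤ[ζ_p]` together with Kummer's lemma for the second case); see `Fermat/Agent/Kummer/`.
import Fermat.Statements.S10
import Fermat.Agent.Kummer.FLT5713

set_option autoImplicit false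
open WeierstrassCurve WeierstrassCurve.Affine WeierstrassCurve.Affine.Point
open CuspForm ModularFormClass UpperHalfPlane
open FreyPackage

namespace Fermat.Agent.S10

theorem result (P : FreyPackage) (hp : P.p = 5 ∨ P.p = 7 ∨ P.p = 13) : ¬ HasGaloisStableCofixedLine (K := AlgebraicClosure ℚ) ℚ P.freyCurve P.p := by
  exfalso
  have hcop : IsCoprime P.a P.b := by
    rw [Int.isCoprime_iff_gcd_eq_one]
    have := P.hgcdab
    rw [← Int.coe_gcd] at this
    exact_mod_cast this
  have h := P.hFLT
  rcases hp with h5 | h7 | h13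
  · rw [h5] at h
    exact Fermat.Agent.Kummer.fltCoprime_5 P.a P.b P.c P.ha0 P.hb0 P.hc0 hcop h
  · rw [h7] at h
    exact Fermat.Agent.Kummer.fltCoprime_7 P.a P.b P.c P.ha0 P.hb0 P.hc0 hcop h
  · rw [h13] at h
    exact Fermat.Agent.Kummer.fltCoprime_13 P.a P.b P.c P.ha0 P.hb0 P.hc0 hcop h

end Fermat.Agent.S10
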