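import Fermat.Statements.S11
import Fermat.Agent.Kummer.FLTSmall
import Fermat.Agent.Kummer.SGCert
import Fermat.Agent.Kummer.PID11
import Fermat.Agent.Kummer.KLA.Main

set_option autoImplicit false
open WeierstrassCurve WeierstrassCurve.Affine WeierstrassCurve.Affine.Point
open CuspForm ModularFormClass UpperHalfPlane
open FreyPackage

namespace Fermat.Agent.S11

open NumberField

/-- A Frey package whose exponent satisfies Fermat's Last Theorem (coprime form) cannot exist. -/
theorem false_of_fltCoprime (P : FreyPackage) (h : Fermat.Agent.Kummer.FLTCoprime P.p) : False := by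
  have hcop : IsCoprime P.a P.b := by
    rw [Int.isCoprime_iff_gcd_eq_one]
    have h1 : ((Int.gcd P.a P.b : ℕ) : ℤ) = 1 := by
      rw [Int.coe_gcd]; exact P.hgcdab
    exact_mod_cast h1
  exact h P.a P.b P.c P.ha0 P.hb0 P.hc0 hcop P.hFLT

/-- Fermat's Last Theorem for the exponent `11` (coprime form), via Sophie Germain (auxiliary
prime `23`) and Kummer's descent in the principal ideal domain `ℤ[ζ₁₁]`. -/
theorem fltCoprime_eleven : Fermat.Agent.Kummer.FLTCoprime 11 := by
  have : Fact (Nat.Prime 11) := ⟨by norm_num⟩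
  have : NeZero ((11 : ℕ) : ℚ) := ⟨by norm_num⟩
  have : IsCyclotomicExtension {11} ℚ (CyclotomicField 11 ℚ) :=
    CyclotomicField.isCyclotomicExtension 11 ℚ
  have : IsPrincipalIdealRing (𝓞 (CyclotomicField 11 ℚ)) :=
    Fermat.Agent.Kummer.eleven_pid (CyclotomicField 11 ℚ)
  exact Fermat.Agent.Kummer.fltCoprime_of (by norm_num) Fermat.Agent.Kummer.sgCondition_11
    (CyclotomicField 11 ℚ) (Fermat.Agent.Kummer.kummerLemmaHolds_11 (CyclotomicField 11 ℚ))

theorem result (P : FreyPackage) (hp : P.p = 11) : ¬ HasGaloisStableCofixedLine (K := AlgebraicClosure ℚ) ℚ P.freyCurve P.p := by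
  intro _
  refine false_of_fltCoprime P ?_
  rw [hp]
  exact fltCoprime_eleven

end Fermat.Agent.S11
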