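/-
Statement S13: a reducible mod-`p` Galois representation of the Frey curve has a Galois-stable
line with trivial action on the quotient.

S13 team (captain helper73).  Blocks, all in `Fermat/Agent/S13/`:
* [M] torsion theory of the short model via a generic point (`MMain`: existence of `p`-torsion,
  product bound for the formal parameters of `p`-torsion points in the kernel of reduction);
* [P] the dichotomy at `p` (`AtP`); [T] the prime 2 (`AtTwo`, `AtTwoUnip`);
* [G] Minkowski's theorem for open normal subgroups containing all inertia (`Minkowski`);
* the cardinality bound (`CardBound`) and the assembly (`Abstract`, `Wiring`, `Final`).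
-/
import Fermat.Statements.S13
import Fermat.Agent.S13.Final
import Fermat.Agent.S13.MMain

set_option autoImplicit false
open WeierstrassCurve WeierstrassCurve.Affine WeierstrassCurve.Affine.Point
open CuspForm ModularFormClass UpperHalfPlane
open FreyPackage

namespace Fermat.Agent.S13

theorem result (P : FreyPackage) (hred : ¬ GaloisRepIsIrreducible (K := AlgebraicClosure ℚ) ℚ P.freyCurve P.p) : HasGaloisStableCofixedLine (K := AlgebraicClosure ℚ) ℚ P.freyCurve P.p := by
  exact Fermat.Agent.S13.Final.frey_cofixed_of_M2 P
    (fun α β hβ hd A hα hβA S hS =>
      Fermat.Agent.S13.MMain.prod_val_zOf_le α β hβ hd A hα hβA P.p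
        (P.pp.odd_of_ne_two (by have := P.hp5; omega)) S hS) hred

end Fermat.Agent.S13
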