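-- S14 (row 13): the Ext-vanishing property `ExtVanishingCts p` for every prime `p ≥ 3`.
-- Proof: block [T] (`Fermat.Agent.S14Tr`, translation to the number-field statement
-- `KummerVanishing p` for `ℚ(ζ_p)`) + team T1 (`Fermat.Agent.S14T`: Thaine relation, units,
-- class descent) + the analytic generation statement (`Fermat.Agent.S14A`).
import Fermat.Statements.S14
import Fermat.Agent.S14.Translation
import Fermat.Agent.S14T.Core

set_option autoImplicit false
open ExtCitation

namespace Fermat.Agent.S14

theorem result {p : ℕ} [Fact p.Prime] (h3 : 3 ≤ p) :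
    ExtCitation.ExtVanishingCts p :=
  Fermat.Agent.S14Tr.extVanishingCts_of_kummerVanishing h3
    (Fermat.Agent.S14T.Core.kummerVanishing Fact.out h3)

end Fermat.Agent.S14
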