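-- Statement S20: dim S₂(Γ₀(N)) equals the classical genus formula for X₀(N).
import Fermat.Statements.S20
import Fermat.Agent.S20.Defs
import Fermat.Agent.S20.Basic
import Fermat.Agent.S20.Small
import Fermat.Agent.S20.Rank
import Fermat.Agent.S20.Det
import Fermat.Agent.S20.Elliptic
import Fermat.Agent.S20.Cusp
import Fermat.Agent.S20.DualCore
import Fermat.Agent.S20.Numerics

set_option autoImplicit false
open CuspForm

namespace Fermat.Agent.S20

theorem result (N : ℕ) [NeZero N] :
    (Module.finrank ℂ (CuspForm (CongruenceSubgroup.Gamma0 N) 2) : ℚ) = ModularCurve.genusFormula N := by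
  obtain ⟨k, f, hB⟩ := exists_freeBasis N
  have hdet : ∀ z : UpperHalfPlane, (Fmat N k f z).det ≠ 0 := det_Fmat_ne_zero N k f hB
  have hH : Dual.Hyp N k f := ⟨hB, hdet, fun q j => inv_Fmat_decay hB q j⟩
  have hST := elliptic_ST N k f hB.mem hdet
  rw [← finrank_SF N 2, Dual.finrank_S2_of hH]
  exact genus_of_counts N k (fun j => hB.nonneg j) (fun j => Dual.weight_le_ten_of hH j)
    (fun j => hB.even j) hB.card_weight_zero (elliptic_S N k f hB.mem hdet) hST.1 hST.2
    (sum_weights N k f hB)

end Fermat.Agent.S20
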