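-- Statement S16 (ModularCurve.natCard_heckeLatticeAlgebra_quotient_eisensteinIdeal_eq_eisensteinNumerator):
-- Mazur's Eisenstein-ideal index.  For every prime p, the quotient of the integral weight-2 Hecke
-- algebra of level p by the image of the Eisenstein ideal has (p-1)/gcd(p-1,12) elements.
--
-- Proof (Fermat/Agent/S16/*):
--   [R]  CyclicQuot.natCard_eq_of_lower_upper : T/I·T ≅ ℤ/m₀ with m₀ℤ = {ev P | P(T) = 0 on S₂};
--        Reduce.exists_mem_ker_eval_eq : duality L ≅ Hom_ℤ(T,ℤ) turns the upper bound (U) into
--        "n = ev P for some P killing S₂".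
--   (U)  upperInput : a cusp form congruent to the Eisenstein series mod m forces m ∣ n
--        (trace identities to level one, T_r-trick, Δ-trick, b₈-trace at ℓ = 2).
--   (L)  lowerInput : every Hecke polynomial killing S₂ has Eisenstein value divisible by n
--        (Shimura character of Γ₀(p), Hecke-equivariant Eichler–Shimura, torsion-freeness of H₁).
--   S23.hasIntegralStructure identifies the lattice Hecke algebra with the Hecke algebra.
import Fermat.Statements.S16
import Fermat.Agent.S16.Defs
import Fermat.Agent.S16.CyclicQuot
import Fermat.Agent.S16.Reduce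
import Fermat.Agent.S16.Lower
import Fermat.Agent.S16.Upper
import Fermat.Agent.S23.Main

set_option autoImplicit false
open ModularCurve CuspForm
open ModularCurve

namespace Fermat.Agent.S16

theorem result
    (p : ℕ) [Fact p.Prime] :
    Nat.card (↥(heckeLatticeAlgebra p ∅) ⧸
        Ideal.map ((latticeRestrictHom p ∅).toRingHom.comp (heckeEvalForms p 2))
          (eisensteinIdeal p)) =
      eisensteinNumerator p := by
  have hint : HasIntegralStructure p 2 := Fermat.Agent.S23.hasIntegralStructure p 2
  refine CyclicQuot.natCard_eq_of_lower_upper p hint _ (lowerInput p) ?_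
  intro m hm
  obtain ⟨P, hP0, hPn⟩ := Reduce.exists_mem_ker_eval_eq p (upperInput p)
  have hP : heckeEvalForms p 2 P = 0 := by
    apply (latticeRestrictHom_bijective p ∅ hint).1
    rw [map_zero]
    exact hP0
  have h := hm P hP
  rw [hPn] at h
  exact Int.natCast_dvd_natCast.mp h

end Fermat.Agent.S16
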