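-- Statement S22: the Hecke algebra of cusp forms on `Γ₀(N)` is a finitely generated `ℤ`-module.
-- Proof: period lattice in the dual of `S_k(Γ₀(N))` (Eichler–Shimura period polynomials).
import Fermat.Statements.S22
import Fermat.Agent.S22.Alg
import Fermat.Agent.S22.Trivial
import Fermat.Agent.S22.Lattice

set_option autoImplicit false
open CuspForm

namespace Fermat.Agent.S22

theorem result (N : ℕ) [NeZero N] (k : ℤ) (S : Set ℕ) :
    Module.Finite ℤ (CuspForm.heckeAlgebra N k S) := by
  by_cases hk : k ≤ 1
  · exact finite_of_le_one N k hk S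
  · obtain ⟨w, hw⟩ : ∃ w : ℕ, k = (w : ℤ) + 2 := ⟨(k - 2).toNat, by omega⟩
    exact finite_adjoin_of_lattice (periodLattice N k w) (periodLattice_fg hw)
      (periodLattice_sep hw) (CuspForm.heckeGenerators N k S) (periodLattice_stable hw S)

end Fermat.Agent.S22
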