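-- Statement S23 (CuspForm.hasIntegralStructure_two): weight-2 cusp forms of level Γ₀(N)
-- have an integral structure.  Proof: Fermat.Agent.S23.hasIntegralStructure (all weights),
-- see Fermat/Agent/S23/Main.lean.
import Fermat.Statements.S23
import Fermat.Agent.S23.Main

set_option autoImplicit false
open CuspForm

namespace Fermat.Agent.S23

theorem result (N : ℕ) [NeZero N] : CuspForm.HasIntegralStructure N 2 := by
  exact hasIntegralStructure N 2

end Fermat.Agent.S23
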