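-- Statement S24 (row 23): genus of the function field of X₀(N) over ℚ̄ equals `genusFormula N`.
-- Proof: Riemann–Hurwitz for the j-line (library `Fermat/Agent/S24/`, `Fermat/Agent/LevelOne/`).
import Fermat.Statements.S24
import Fermat.Agent.S24.ModAssembly
import Fermat.Agent.S24.AnEmb
import Fermat.Agent.S24.AnEmbCusp

set_option autoImplicit false
open ModularCurve

namespace Fermat.Agent.S24

theorem result (N : ℕ) [NeZero N]
    [AlgebraicCurve.HasCanonicalDivisor (K := AlgebraicClosure ℚ) (F := ↥(ModularCurve.modularFunctionFieldBar N))] :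
    (AlgebraicCurve.genus (AlgebraicClosure ℚ) ↥(ModularCurve.modularFunctionFieldBar N) : ℚ)
      = ModularCurve.genusFormula N := by
  exact genus_modular_of_hasEmb N (fun z₀ => hasTaylorEmb N z₀) (hasCuspEmb N)

end Fermat.Agent.S24
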