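-- Statement S28 (row 27): the Igusa pullback is integral in characteristic `ℓ ∤ N`.
-- Assembly (helper28) of the S28 team library `Fermat/Agent/S28/*`:
--   [A]  SchemeRed.isIntegral_pullback_of_charts          (chart reduction of the scheme statement)
--   [T2] TensorDomain.isDomain_tensor_of_ker              (kernel of the reduction => domain fibre)
--   [T]  Tower.exists_rho_charts                          (tower of good pairs over the Gauss valuation ring)
--   [L]  CharL.charLInputs                                (characteristic-`ℓ` irreducibility inputs)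
--   [E]  HeckeMain.exists_heckeData                       (integral modular polynomial data for every prime)
import Fermat.Statements.S28
import Fermat.Agent.S28.SchemeRed
import Fermat.Agent.S28.TensorDomain
import Fermat.Agent.S28.Tower
import Fermat.Agent.S28.CharL
import Fermat.Agent.S28.HeckeMain

set_option autoImplicit false
open AlgebraicGeometry CategoryTheory CategoryTheory.Limits ModularCurve ModularCurve.IgusaScheme
noncomputable section
set_option autoImplicit false
open ModularCurve ModularCurve.IgusaScheme

namespace Fermat.Agent.S28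

set_option maxHeartbeats 4000000 in
set_option synthInstance.maxHeartbeats 400000 in
theorem result
    (N : ℕ) [NeZero N] (ℓ : ℕ) [Fact ℓ.Prime] (hℓN : ¬ ℓ ∣ N)
    (K : Type) [Field K] [CharP K ℓ] [Algebra ↥(GaloisRep.ratLocalizedAt ℓ) K] :
    IsIntegral ↑(pullback (igusaTo N ℓ)
      (Spec.map (CommRingCat.ofHom (algebraMap ↥(GaloisRep.ratLocalizedAt ℓ) K)))) := by
  have hE : ∀ r : ℕ, r.Prime → Nonempty (HeckeData r) := fun r hr => exists_heckeData r hr
  have hd : ∀ p : ℕ, p.Prime → p ∣ N → HeckeData p := fun p hp _ => Classical.choice (hE p hp)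
  obtain ⟨⟨ρF, hF⟩, ⟨ρI, hI⟩, ⟨ρM⟩⟩ := exists_rho_charts N ℓ hℓN hd (charLInputs ℓ hE)
  exact isIntegral_pullback_of_charts N ℓ K (isDomain_tensor_of_ker ℓ _ ρF hF K)
    (isDomain_tensor_of_ker ℓ _ ρI hI K) (nontrivial_tensor_of_ringHom ℓ _ ρM K)

end Fermat.Agent.S28
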