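import Fermat.Statements.S29
import Fermat.Agent.S29.Asm
import Fermat.Agent.S29.KTop

set_option autoImplicit false
open CuspForm CuspForm.IsNormalizedEigenform

namespace Fermat.Agent.S29

/-- **S29**: the residual Galois representation attached to a normalized weight-2 eigenform.
Assembly (`S29/Asm.lean`, `S29/Plan.lean`): block [K] (`kStatement`, the Hecke-equivariant
injection `Lpar N / p → J₀(N)[p]`) + [Eig] ⇒ eigenvector in `𝔽 ⊗ J₀(N)[p]`; S37 core datum ⇒
Eichler–Shimura relation and trivial inertia on `J₀(N)[p]`; orbit span ⇒ Galois module;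
[FD] + [Cyc] + [PS] ⇒ two-dimensional representation; base change to `k`. -/
theorem result
    {N : ℕ} {g : CuspForm (CongruenceSubgroup.Gamma0 N) 2} (hg : g.IsNormalizedEigenform)
    {p : ℕ} (hp : p.Prime) {k : Type} [Field k] [CharP k p]
    (φ : integralClosure ℤ ℂ →+* k) :
    ∃ ρ : ResidualGaloisRep k, ρ.IsAttachedTo g φ ∧
      ∀ ℓ : ℕ, ℓ.Prime → ¬ ℓ ∣ N * p → ρ.IsUnramifiedAt ℓ :=
  Asm.s29_of_k (fun N p _ hp => kStatement N p hp.ne_zero) hg hp φ

end Fermat.Agent.S29
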