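-- Statement S30 (row 29): the p-adic Galois representation attached to a point
-- `χ : heckeAlgebra N 2 S →+* 𝒪'` of the weight-2 Hecke algebra (Eichler–Shimura–Deligne), with
-- `charpoly ρ(Frob_ℓ) = X² - χ(T_ℓ) X + ℓ` for `ℓ ∉ S` and `ρ` unramified at all `q ∤ N`, `q ≠ p`.
-- Assembly (captain: helper33): `𝒪'' := 𝒪'`;
--   [OddRep] (`S30/OddRepB.lean`: an odd continuous determinant over a DVR is a `GaloisRepAdic`)
--   [Det]    (`S30/Plan.lean`: the determinant `(t, d)` of `χ` as a limit over the levels `p ^ n`,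
--             from `S30/PseudoTop`, `S30/LevelGlue`, S29's [FD] and [K] at the moduli `p ^ n`).
import Fermat.Statements.S30
import Fermat.Agent.S30.Top
import Fermat.Agent.S30.Plan
import Fermat.Agent.S30.PseudoTop
import Fermat.Agent.S30.LevelGlue
import Fermat.Agent.S30.OddRepB
import Fermat.Agent.S29.FD
import Fermat.Agent.S29.KTop

set_option autoImplicit false
open Polynomial
open CuspForm

namespace Fermat.Agent.S30

theorem result :
    ∀ (p : ℕ) [Fact p.Prime] (N : ℕ) [NeZero N] (S : Finset ℕ)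
      (_hpS : p ∈ S) (_hNS : ∀ q : ℕ, q.Prime → q ∣ N → q ∈ S)
      (𝒪' : Type) [CommRing 𝒪'] [IsDomain 𝒪'] [IsDiscreteValuationRing 𝒪']
      [IsAdicComplete (IsLocalRing.maximalIdeal 𝒪') 𝒪'] [Finite (IsLocalRing.ResidueField 𝒪')]
      [CharZero 𝒪'] (_hp𝒪' : (p : 𝒪') ∈ IsLocalRing.maximalIdeal 𝒪')
      (χ : CuspForm.heckeAlgebra N 2 (↑S : Set ℕ) →+* 𝒪'),
      ∃ (𝒪'' : Type) (_ : CommRing 𝒪'') (_ : IsDomain 𝒪'') (_ : IsDiscreteValuationRing 𝒪'')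
        (_ : IsAdicComplete (IsLocalRing.maximalIdeal 𝒪'') 𝒪'')
        (_ : Finite (IsLocalRing.ResidueField 𝒪'')) (_ : CharZero 𝒪'')
        (_ : Algebra 𝒪' 𝒪'') (_ : Module.Finite 𝒪' 𝒪'') (_ : IsLocalHom (algebraMap 𝒪' 𝒪'')),
      Function.Injective (algebraMap 𝒪' 𝒪'') ∧
      ∃ ρ : GaloisRepAdic 𝒪'',
        (∀ (ℓ : ℕ) (hℓ : ℓ.Prime) (hℓN : ¬ ℓ ∣ N) (hℓS : ℓ ∉ (↑S : Set ℕ)),
          ∀ A : ValuationSubring (AlgebraicClosure ℚ), A.LiesOverPrime ℓ →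
            ∀ σ : AlgebraicClosure ℚ ≃ₐ[ℚ] AlgebraicClosure ℚ, A.IsFrobeniusAt σ ℓ →
              LinearMap.charpoly (ρ.ρ σ) =
                X ^ 2 - C (algebraMap 𝒪' 𝒪'' (χ (CuspForm.heckeAlgebra.T hℓ hℓN hℓS))) * X
                  + C ((ℓ : 𝒪''))) ∧
        (∀ q : ℕ, q.Prime → ¬ q ∣ N → q ≠ p → ρ.IsUnramifiedAt q) := by
  intro p _ N _ S hpS hNS 𝒪' _ _ _ _ _ _ hp𝒪' χ
  have hp : p.Prime := Fact.out
  exact Fermat.Agent.S30Top.result_of_det_oddRep Fermat.Agent.S30.OddRepB.oddRepStatement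
    p N S 𝒪' hp𝒪' χ
    (Fermat.Agent.S30.Plan.detStatement_of_leaves Fermat.Agent.S30.PseudoTop.pseudoStatement
      Fermat.Agent.S30.LevelGlue.levelStatement Fermat.Agent.S29.FD.fdStatement
      p N S hpS hNS 𝒪' hp𝒪' χ
      (fun n => Fermat.Agent.S30.kAway_of_kStatement hp n
        (Fermat.Agent.S29.kStatement N (p ^ n) (pow_ne_zero n hp.ne_zero))))

end Fermat.Agent.S30
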