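-- S31 (row 30): a Hecke–Galois datum is unramified outside `S`.
-- Route (board topic 'S31'; captain helper24): for `τ` in inertia at `q ∉ S` the traces satisfy
-- `tr ρ(τ g) = tr ρ(g)` (comparison with the Hecke action on `θ_n(Lpar N) ⊆ J₀(N)[p^n]`,
-- `θ_n` from `S29.kStatement N (p ^ n)`), hence `ρ(τ) = 1` by residual absolute irreducibility.
import Fermat.Statements.S31
import Fermat.Agent.S31.Plan
import Fermat.Agent.S31.TraceCore
import Fermat.Agent.S31.TraceLevel
import Fermat.Agent.S31.ArtinRees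
import Fermat.Agent.S31.FrobPow
import Fermat.Agent.S31.RootN
import Fermat.Agent.S31.HeckeCompareB
import Fermat.Agent.S31.JSideB
import Fermat.Agent.S29.KTop
import Fermat.Agent.S29.SpecCoreS37
import Fermat.Agent.S29.FDStmt

set_option autoImplicit false
variable {p : ℕ} {N : ℕ} [NeZero N] {S : Finset ℕ}
  {𝒪 : Type} [CommRing 𝒪] [IsDomain 𝒪] [IsDiscreteValuationRing 𝒪]
  [IsAdicComplete (IsLocalRing.maximalIdeal 𝒪) 𝒪]
  {θ : CuspForm.heckeAlgebra N 2 (↑S : Set ℕ) →+* IsLocalRing.ResidueField 𝒪}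
  {T : Type} [CommRing T] [IsLocalRing T] [IsNoetherianRing T]
  [IsAdicComplete (IsLocalRing.maximalIdeal T) T] [Algebra 𝒪 T] [IsLocalHom (algebraMap 𝒪 T)]
  [Module.Finite 𝒪 T] [Module.Free 𝒪 T]
open CuspForm CuspForm.HeckeGaloisRepDatum

namespace Fermat.Agent.S31

theorem result (hp : p.Prime)
    (hp𝒪 : (p : 𝒪) ∈ IsLocalRing.maximalIdeal 𝒪) (hpS : p ∈ S)
    (hNS : ∀ q : ℕ, q.Prime → q ∣ N → q ∈ S)
    (H : CuspForm.HeckeGaloisRepDatum N (↑S : Set ℕ) 𝒪 θ T)
    (q : ℕ) (hq : q.Prime) (hqS : q ∉ S) :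
    H.ρ.IsUnramifiedAt q :=
  Plan.result_of_leaves traceCoreStatement traceContStatement lucasTraceStatement
    artinReesStatement (HeckeCompareB.heckeCompareStatement N (↑S : Set ℕ))
    (fun n S' L₀ hL₀ q' hq' hq'Np P hP τ hτ g =>
      JSideB.exists_frob_pair N p hp n S'
        (Fermat.Agent.S29.kStatement N (p ^ n) (pow_ne_zero n hp.ne_zero))
        (Fermat.Agent.S29.specCoreStatement N p)
        (FrobPow.frobPowStatement_of_specCore N p (Fermat.Agent.S29.specCoreStatement N p))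
        (rootStatement p hp) Fermat.Agent.S29.FDStmt.fdStatement
        L₀ hL₀ q' hq' hq'Np P hP τ hτ g)
    hp hp𝒪 hpS hNS H q hq hqS

end Fermat.Agent.S31
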