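-- Statement S37 (row 36): the Eichler–Shimura congruence relation, in the prelude's packaged
-- form `SpecializationExists`, for `J₀(N)` over `ℚ̄`.
-- Assembly (captain: helper33): `S37/Final.lean` (frozen S18 + Hecke inputs + Frobenius existence
-- + Route P + the top glue of block [R0]) applied to the leaf `R0.LocStatement N ℓ`, which is
-- assembled here from the landed second-layer leaves of block [R0].
import Fermat.Statements.S37
import Fermat.Agent.S37.Final
import Fermat.Agent.S37.R0LocGlue
import Fermat.Agent.S37.R0RhoS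
import Fermat.Agent.S37.R0SurjR2
import Fermat.Agent.S37.R0LevelS
import Fermat.Agent.S37.R0Dir
import Fermat.Agent.S37.R0AlgS
import Fermat.Agent.S37.R0Total
import Fermat.Agent.S37.R0UniqueB
import Fermat.Agent.S37.R0Mem
import Fermat.Agent.S37.R0DegK

set_option autoImplicit false
open ModularCurve

namespace Fermat.Agent.S37

/-- The leaf [Loc] of block [R0]: the family of local data of the smooth model of `X₀(N)` over a
valuation ring `A ⊂ ℚ̄` above a prime `ℓ ∤ N`. -/
theorem locStatement_all (N ℓ : ℕ) [NeZero N] : Fermat.Agent.S37.R0.LocStatement N ℓ :=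
  Fermat.Agent.S37.R0.locStatement_of_point N ℓ
    (Fermat.Agent.S37.R0.pointStatement_of_leaves N ℓ
      (Fermat.Agent.S37.R0RhoS.rhoStatement N ℓ)
      (Fermat.Agent.S37.R0SurjR2.surjStatement N ℓ)
      (Fermat.Agent.S37.R0LevelS.noethStatement N ℓ)
      (Fermat.Agent.S37.R0LevelS.levelStatement N ℓ)
      (Fermat.Agent.S37.R0Dir.dirStatement N ℓ)
      (Fermat.Agent.S37.R0AlgS.algStatement N ℓ)
      (Fermat.Agent.S37.R0.fracStatement N ℓ))
    (Fermat.Agent.S37.R0Total.totalStatement N ℓ)
    (Fermat.Agent.S37.R0UniqueB.uniqueStatement_of_surj N ℓ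
      (Fermat.Agent.S37.R0SurjR2.surjStatement N ℓ))
    (Fermat.Agent.S37.R0Mem.memStatement N ℓ)
    (Fermat.Agent.S37.R0DegK.degKStatement N ℓ)

theorem result (N p : ℕ) [NeZero N] (hcomm : ModularCurve.HeckeOperatorsCommuteBar N) : letI := ModularCurve.heckeModuleBar N; ∀ (_ : SMulCommClass (AlgebraicClosure ℚ ≃ₐ[ℚ] AlgebraicClosure ℚ) ModularCurve.HeckeAlg (ModularCurve.JZero N)), ModularCurve.SpecializationExists (K := ℚ) (L := AlgebraicClosure ℚ) N p (ModularCurve.JZero N) :=
  Fermat.Agent.S37Final.specializationExists_of_loc N p hcomm (fun ℓ => locStatement_all N ℓ)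

end Fermat.Agent.S37
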