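/-
S41 — level raising (Ribet, Diamond–Taylor).  Captain: helper85.
Assembly of the block leaves ([NE], [FS], [NEW], [IH], [COH], [PD], [ALG]) through
`Plan.result_of_leaves`.
-/
import Fermat.Statements.S41
import Fermat.Agent.S41.Plan
import Fermat.Agent.S41.NE
import Fermat.Agent.S41.FS
import Fermat.Agent.S41.Ihara
import Fermat.Agent.S41.Coh
import Fermat.Agent.S41.New
import Fermat.Agent.S41.PD
import Fermat.Agent.S41.Alg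

set_option autoImplicit false
open WeierstrassCurve WeierstrassCurve.Affine WeierstrassCurve.Affine.Point
open scoped CongruenceSubgroup
open WeierstrassCurve

namespace Fermat.Agent.S41

theorem result
    (E : WeierstrassCurve ℚ) [E.IsElliptic] {W : WeierstrassCurve ℤ} (hW : W.IsIntegralModelOf E)
    {p N q' : ℕ} (hp : p.Prime) (hp2 : p ≠ 2) (hN : 0 < N) (hq' : q'.Prime) (hq'N : ¬ q' ∣ N) (hq'p : q' ≠ p)
    (hirr : GaloisRepIsIrreducible (K := AlgebraicClosure ℚ) ℚ E p)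
    (f : CuspForm (CongruenceSubgroup.Gamma0 N) 2) (𝔪 : Ideal (integralClosure ℤ ℂ))
    (hf : f.IsNormalizedEigenform) (hmax : 𝔪.IsMaximal) (hpm : (p : integralClosure ℤ ℂ) ∈ 𝔪)
    (hcong : ∀ ℓ : ℕ, ℓ.Prime → W.IsGoodPrimeFor ℓ → ¬ ℓ ∣ N → ℓ ≠ p →
      ∃ a : integralClosure ℤ ℂ, (a : ℂ) = ModularFormClass.qCoeff f ℓ ∧
        a - ((W.apOfModel ℓ : ℤ) : integralClosure ℤ ℂ) ∈ 𝔪)
    (hLR : ∃ a : integralClosure ℤ ℂ, (a : ℂ) = ModularFormClass.qCoeff f q' ∧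
      a ^ 2 - ((q' : integralClosure ℤ ℂ) + 1) ^ 2 ∈ 𝔪) :
    ∃ (g : CuspForm (CongruenceSubgroup.Gamma0 (N * q')) 2) (𝔪' : Ideal (integralClosure ℤ ℂ)),
      g.IsNormalizedEigenform ∧ 𝔪'.IsMaximal ∧ (p : integralClosure ℤ ℂ) ∈ 𝔪' ∧
      (∀ ℓ : ℕ, ℓ.Prime → W.IsGoodPrimeFor ℓ → ¬ ℓ ∣ N * q' → ℓ ≠ p →
        ∃ a : integralClosure ℤ ℂ, (a : ℂ) = ModularFormClass.qCoeff g ℓ ∧
          a - ((W.apOfModel ℓ : ℤ) : integralClosure ℤ ℂ) ∈ 𝔪') ∧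
      g.IsNewAt q' := by
  haveI : Fact p.Prime := ⟨hp⟩
  haveI : NeZero N := ⟨hN.ne'⟩
  haveI : Fact q'.Prime := ⟨hq'⟩
  haveI : NeZero (N * q') := ⟨Nat.mul_ne_zero hN.ne' hq'.ne_zero⟩
  haveI := CohLat.finite_parabolicHoms_int N
  haveI := CohLat.free_parabolicHoms_int N
  haveI := CohLat.finite_parabolicHoms_int (N * q')
  haveI := CohLat.free_parabolicHoms_int (N * q')
  exact Plan.result_of_leaves hq'N f 𝔪 hmax hcong hLR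
    -- [NE]
    (NE.main E hW hp hp2 hirr)
    -- [FS]
    (fun Ps θ hθ => FS.exists_eigen_mod_p_of_eigenform N hp f hf 𝔪 hmax hpm Ps θ hθ)
    -- [NEW]
    (New.hNEW N q' p hq'N)
    -- [IH]
    (Ihara.ihara_plan N q' hq'N p hp2)
    -- [COH]
    Coh.hC0₁ Coh.hC0₂ Coh.hC1₁ Coh.hC1₂ Coh.hC2₁ Coh.hC2₂
    (Coh.hC3r₁ N q') (Coh.hC3r₂ N q') (Coh.hC3t₁ N q') (Coh.hC3t₂ N q')
    Coh.hC4r₁ Coh.hC4r₂ Coh.hC4t₁ Coh.hC4t₂ Coh.hC4T Coh.hC6 (Coh.hC7 hp.ne_zero)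
    -- [PD]
    (fun M => pdPair M p)
    (fun M x y => pdPair_skew M p x y)
    (fun M _ x h => pdPair_nondegenerate M hp2 x h)
    (fun M ℓ _ _ hℓ x y h₁ h₂ => pdPair_res₁ M ℓ p hℓ x y h₁ h₂)
    (fun M ℓ _ _ hℓ x y h₁ h₂ => pdPair_res₂ M ℓ p hℓ x y h₁ h₂)
    -- [ALG]
    (fun P tL tM Tq htL htM hTq α₁ α₂ β₁ β₂ hα₁ hα₂ hβ₁ hβ₂ c h11 h22 h12 h21 BL BM hBL hBM
        hBLs hBMs hadj₁ hadj₂ hsaL hsaM θ a ha x₀ hx₀ hx₀θ hx₀q i₀ e hIh hNE =>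
      Alg.exists_new_eigenvector_mod_p tL tM Tq htL htM hTq α₁ α₂ β₁ β₂ hα₁ hα₂ hβ₁ hβ₂ c
        h11 h22 h12 h21 BL BM hBL hBM hBLs hBMs hadj₁ hadj₂ hsaL hsaM θ a ha x₀ hx₀ hx₀θ hx₀q
        i₀ e hIh hNE)

end Fermat.Agent.S41
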