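import Fermat.Statements.S42
import Fermat.Agent.S29.Asm
import Fermat.Agent.S29.KTop

set_option autoImplicit false
open FreyPackage

namespace Fermat.Agent.S42

/-- **S42**: residual attachment for every eigenform of every positive level, at the residue
characteristic of the Frey package.  Same core as S29 (`S29/Asm.lean`): block [K]
(`Fermat.Agent.S29.kStatement`) + [Eig], the S37 core datum, [FD] + [Cyc] + [PS]; the number
field is the normal closure of the level of the representation and the Frey `p`-torsion field
(`S29/Top42.lean`). -/
theorem result (P : FreyPackage) :
    ∀ M : ℕ, 0 < M → P.EigenformResidualAttachmentAt M :=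
  Fermat.Agent.S29.Asm.s42_of_k
    (fun N p _ hp _ => Fermat.Agent.S29.kStatement N p hp.ne_zero) P

end Fermat.Agent.S42
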