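-- Statement S49: the Deligne–Serre lifting lemma for lattice-realised eigensystems.
import Fermat.Statements.S49
import Fermat.Agent.S49.Lattice
import Fermat.Agent.S49.ModThree
import Fermat.Agent.S49.QCoeff
import Fermat.Agent.S49.Normalize
import Fermat.Prelude.Thm_CuspForm_intLattice_fg
import Fermat.Prelude.Thm_CuspForm_mem_intLattice_of_mem_heckeAlgebra

set_option autoImplicit false
open CuspForm EisensteinWeightOne CongruenceSubgroup ModularFormClass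
open FLT FLT.AbstractIntegralStructure

namespace Fermat.Agent.S49

/-- A cusp form all of whose coefficients are integers divisible by `3` is three times an element
of the integral lattice. -/
theorem exists_three_zsmul_eq {N : ℕ} (F : CuspForm (Gamma0 N) 2)
    (hF : ∀ n : ℕ, ∃ m : ℤ, qCoeff ⇑F n = 3 * (m : ℂ)) :
    ∃ y ∈ CuspForm.intLattice N 2, F = (3 : ℤ) • y := by
  refine ⟨(3 : ℂ)⁻¹ • F, ?_, ?_⟩
  · rw [mem_intLattice_iff]
    intro n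
    obtain ⟨m, hm⟩ := hF n
    refine ⟨m, ?_⟩
    rw [qCoeff_smul, hm]
    field_simp
  · rw [← Int.cast_smul_eq_zsmul ℂ, smul_smul]
    norm_num

theorem result
    {N : ℕ} [NeZero N] (h : CuspForm.HasIntegralBasis N) {a : ℕ → ℤ}
    (heig : FormalHecke.IsEigensystem
      (fun ℓ => if ℓ ∣ N then 0 else ((chiNegThree ℓ : ℤ) : ℤ)) a)
    (hreal : CuspForm.IsLatticeRealized N a) :
    ∃ (f : CuspForm (Gamma0 N) 2) (_ : f.IsNormalizedEigenform)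
      (𝔪' : Ideal (integralClosure ℤ ℂ)), 𝔪'.IsMaximal ∧
      ((3 : ℕ) : integralClosure ℤ ℂ) ∈ 𝔪' ∧
      ∀ (ℓ : ℕ) (_ : ℓ.Prime) (_ : ¬ ℓ ∣ N),
        ∃ c : integralClosure ℤ ℂ, (c : ℂ) = ModularFormClass.qCoeff f ℓ ∧
          c - (a ℓ : integralClosure ℤ ℂ) ∈ 𝔪' := by
  obtain ⟨f₀, -, af, haf, haf3⟩ := hreal
  have hk : (1 : ℤ) ≤ 2 := by norm_num
  have haf' : ∀ n : ℕ, qCoeff ⇑f₀ n = (af n : ℂ) := fun n => (haf n).symm
  have hf₀L : f₀ ∈ CuspForm.intLattice N 2 :=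
    (mem_intLattice_iff f₀).mpr fun n => ⟨af n, (haf n).symm⟩
  have hLspan : Submodule.span ℂ
      ((CuspForm.intLattice N 2 : Submodule ℤ (CuspForm (Gamma0 N) 2)) :
        Set (CuspForm (Gamma0 N) 2)) = ⊤ := by
    rw [eq_top_iff, ← h]
    apply Submodule.span_mono
    intro f hf
    refine (mem_intLattice_iff f).mpr fun n => ?_
    obtain ⟨m, hm⟩ := Subring.mem_bot.mp (hf n)
    exact ⟨m, hm.symm⟩
  have hGL : ∀ t ∈ heckeGenerators N 2 ∅, ∀ x ∈ CuspForm.intLattice N 2,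
      t x ∈ CuspForm.intLattice N 2 := fun t ht x hx =>
    CuspForm.mem_intLattice_of_mem_heckeAlgebra hk (S := ∅) (Algebra.subset_adjoin ht) hx
  have hf₀' : ∀ y ∈ CuspForm.intLattice N 2, f₀ ≠ (3 : ℤ) • y := by
    intro y hy heq
    obtain ⟨m, hm⟩ := (mem_intLattice_iff y).mp hy 1
    have h1 : qCoeff ⇑f₀ 1 = 3 * m := by
      rw [heq, qCoeff_zsmul, hm]; push_cast; ring
    rw [← haf 1] at h1
    have h2 : af 1 = 3 * m := by exact_mod_cast h1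
    exact not_dvd_af_one heig haf3 ⟨m, h2⟩
  have hT : ∀ (ℓ : ℕ) (hℓ : ℓ.Prime) (hℓN : ¬ ℓ ∣ N), ∃ y ∈ CuspForm.intLattice N 2,
      heckeTLin 2 hℓ hℓN f₀ - (a ℓ) • f₀ = (3 : ℤ) • y := by
    intro ℓ hℓ hℓN
    apply exists_three_zsmul_eq
    intro n
    obtain ⟨m, hm⟩ := eigen_modThree_of_not_dvd heig haf3 hℓ hℓN n
    refine ⟨m, ?_⟩
    rw [qCoeff_sub, qCoeff_zsmul, qCoeff_heckeTLin]
    simp only [haf']
    split_ifs at hm ⊢ with hdvd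
    · have hm' := congrArg (fun z : ℤ => (z : ℂ)) hm
      push_cast at hm'
      rw [← hm']; norm_num
    · have hm' := congrArg (fun z : ℤ => (z : ℂ)) hm
      push_cast at hm'
      rw [← hm']
  have hU : ∀ (ℓ : ℕ) (_ : ℓ.Prime) (hℓN : ℓ ∣ N), ∃ y ∈ CuspForm.intLattice N 2,
      heckeULin 2 hℓN f₀ - (a ℓ) • f₀ = (3 : ℤ) • y := by
    intro ℓ hℓ hℓN
    apply exists_three_zsmul_eq
    intro n
    obtain ⟨m, hm⟩ := eigen_modThree_of_dvd heig haf3 hℓ hℓN n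
    refine ⟨m, ?_⟩
    rw [qCoeff_sub, qCoeff_zsmul, qCoeff_heckeULin hℓ]
    simp only [haf']
    have hm' := congrArg (fun z : ℤ => (z : ℂ)) hm
    push_cast at hm'
    rw [← hm']
  have hc : ∀ t ∈ heckeGenerators N 2 ∅, ∃ n : ℤ, ∃ y ∈ CuspForm.intLattice N 2,
      t f₀ - n • f₀ = (3 : ℤ) • y := by
    rintro t (⟨ℓ, hℓ, hℓN, -, rfl⟩ | ⟨q, hqN, hq, -, rfl⟩)
    · exact ⟨a ℓ, hT ℓ hℓ hℓN⟩
    · exact ⟨a q, hU q hq hqN⟩
  obtain ⟨g, μ, 𝔪', hg0, hmax, h3, hμ⟩ :=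
    exists_eigenvector_lift (heckeGenerators N 2 ∅)
      (fun s hs t ht => commute_of_mem_heckeGenerators hs ht) (CuspForm.intLattice N 2)
      (CuspForm.intLattice_fg N 2) hLspan hGL f₀ hf₀L hf₀' hc
  -- the eigenvalues
  let lam : ℕ → ℂ := fun ℓ =>
    if hℓ : ℓ.Prime then
      (if hN : ℓ ∣ N then ((μ (heckeULin 2 hN) : integralClosure ℤ ℂ) : ℂ)
        else ((μ (heckeTLin 2 hℓ hN) : integralClosure ℤ ℂ) : ℂ))
    else 0
  have hlamT : ∀ (ℓ : ℕ) (hℓ : ℓ.Prime) (hℓN : ¬ ℓ ∣ N),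
      lam ℓ = ((μ (heckeTLin 2 hℓ hℓN) : integralClosure ℤ ℂ) : ℂ) := by
    intro ℓ hℓ hℓN
    simp only [lam, dif_pos hℓ, dif_neg hℓN]
  have hlamU : ∀ (ℓ : ℕ) (_ : ℓ.Prime) (hℓN : ℓ ∣ N),
      lam ℓ = ((μ (heckeULin 2 hℓN) : integralClosure ℤ ℂ) : ℂ) := by
    intro ℓ hℓ hℓN
    simp only [lam, dif_pos hℓ, dif_pos hℓN]
  obtain ⟨f, hf, hfl⟩ := exists_normalizedEigenform_of_eigenvector g hg0 lam
    (fun ℓ hℓ hℓN => by
      rw [hlamT ℓ hℓ hℓN]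
      exact (hμ _ (heckeTLin_mem_heckeGenerators hℓ hℓN (Set.notMem_empty ℓ))).1)
    (fun ℓ hℓ hℓN => by
      rw [hlamU ℓ hℓ hℓN]
      exact (hμ _ (heckeULin_mem_heckeGenerators hℓ hℓN (Set.notMem_empty ℓ))).1)
  refine ⟨f, hf, 𝔪', hmax, h3, ?_⟩
  intro ℓ hℓ hℓN
  refine ⟨μ (heckeTLin 2 hℓ hℓN), ?_, ?_⟩
  · rw [hfl ℓ hℓ, hlamT ℓ hℓ hℓN]
  · exact (hμ _ (heckeTLin_mem_heckeGenerators hℓ hℓN (Set.notMem_empty ℓ))).2 (a ℓ)
      (hT ℓ hℓ hℓN)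

end Fermat.Agent.S49
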