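-- Statement S51 (row 45): for a semistable integral Weierstrass curve, the mod-3 or the mod-5
-- Galois representation is irreducible.  Proof: explicit X_0(15) (team S51, library Fermat/Agent/S51/):
-- transport to a short model, 3- and 5-torsion data, the plane model of X_0(15) and a 2-descent,
-- then the four non-cuspidal j-invariants are excluded 5-adically.
import Fermat.Statements.S51
import Fermat.Agent.S51.Transport
import Fermat.Agent.S51.E3
import Fermat.Agent.S51.E5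
import Fermat.Agent.S51.Bridge
import Fermat.Agent.S51.JInv

set_option autoImplicit false
open WeierstrassCurve WeierstrassCurve.Affine WeierstrassCurve.Affine.Point
open CuspForm ModularFormClass UpperHalfPlane
open WeierstrassCurve

namespace Fermat.Agent.S51

theorem result (W : WeierstrassCurve ℤ) (hΔ : W.Δ ≠ 0) (hW : W.IsSemistableModel) : W.ModRepIsIrreducible 3 ∨ W.ModRepIsIrreducible 5 := by
  by_contra hcon
  rw [not_or] at hcon
  obtain ⟨h3, h5⟩ := hcon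
  have hc4 : (W.map (Int.castRingHom ℚ)).c₄ = (W.c₄ : ℚ) := by
    rw [WeierstrassCurve.map_c₄]; rfl
  have hc6 : (W.map (Int.castRingHom ℚ)).c₆ = (W.c₆ : ℚ) := by
    rw [WeierstrassCurve.map_c₆]; rfl
  have hrel : (1728 : ℚ) * (W.Δ : ℚ) = (W.c₄ : ℚ) ^ 3 - (W.c₆ : ℚ) ^ 2 := by
    exact_mod_cast W.c_relation
  have hΔq : (W.Δ : ℚ) ≠ 0 := by exact_mod_cast hΔ
  have hdisc : 4 * (-27 * (W.c₄ : ℚ)) ^ 3 + 27 * (-54 * (W.c₆ : ℚ)) ^ 2 = -136048896 * (W.Δ : ℚ) := by
    linear_combination (78732 : ℚ) * hrel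
  have hdisc_ne : 4 * (-27 * (W.c₄ : ℚ)) ^ 3 + 27 * (-54 * (W.c₆ : ℚ)) ^ 2 ≠ 0 := by
    rw [hdisc]; exact mul_ne_zero (by norm_num) hΔq
  have h3' : ¬ Irr (shortW (-27 * (W.c₄ : ℚ)) (-54 * (W.c₆ : ℚ))) 3 := by
    intro h
    apply h3
    have := irr_of_irr_short (W.map (Int.castRingHom ℚ)) 3 (by rw [hc4, hc6]; exact h)
    exact this
  have h5' : ¬ Irr (shortW (-27 * (W.c₄ : ℚ)) (-54 * (W.c₆ : ℚ))) 5 := by
    intro h
    apply h5
    have := irr_of_irr_short (W.map (Int.castRingHom ℚ)) 5 (by rw [hc4, hc6]; exact h)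
    exact this
  obtain ⟨x, hx⟩ := exists_rat_root_psi3 _ _ hdisc_ne h3'
  obtain ⟨u, v, huv, hA, hB⟩ := exists_rat_five_data _ _ hdisc_ne h5'
  have hcore := core _ _ x u v hdisc_ne hx huv hA hB
  obtain ⟨j1, j2, j3, j4⟩ := semistable_j_ne W hΔ hW
  rw [hdisc] at hcore
  have hA3 : 6912 * (-27 * (W.c₄ : ℚ)) ^ 3 = -136048896 * (W.c₄ : ℚ) ^ 3 := by ring
  rw [hA3] at hcore
  rcases hcore with h | h | h | h
  · apply j1
    have h' : (2 : ℚ) * (W.c₄ : ℚ) ^ 3 = -25 * (W.Δ : ℚ) := by linarith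
    exact_mod_cast h'
  · apply j2
    have h' : (8 : ℚ) * (W.c₄ : ℚ) ^ 3 = -349938025 * (W.Δ : ℚ) := by linarith
    exact_mod_cast h'
  · apply j3
    have h' : (32 : ℚ) * (W.c₄ : ℚ) ^ 3 = -121945 * (W.Δ : ℚ) := by linarith
    exact_mod_cast h'
  · apply j4
    have h' : (32768 : ℚ) * (W.c₄ : ℚ) ^ 3 = 46969655 * (W.Δ : ℚ) := by linarith
    exact_mod_cast h'

end Fermat.Agent.S51
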