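import Fermat.Statements.S53
import Fermat.Agent.S53.Burnside
import Fermat.Agent.S53.Ring
import Fermat.Agent.S53.Glue
import Fermat.Agent.S53.MatRes
import Fermat.Agent.S53.CompleteLift

set_option autoImplicit false
set_option autoImplicit false
open GaloisRep

namespace Fermat.Agent.S53

theorem result
    (𝒪 : Type) [CommRing 𝒪] [IsDomain 𝒪] [IsDiscreteValuationRing 𝒪]
    [IsAdicComplete (IsLocalRing.maximalIdeal 𝒪) 𝒪] [Finite (IsLocalRing.ResidueField 𝒪)]
    (ρbar : ResidualGaloisRep (IsLocalRing.ResidueField 𝒪))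
    (𝒟 : ∀ ⦃A : Type⦄ [CommRing A] [IsLocalRing A] [Algebra 𝒪 A], GaloisRepAdic A → Prop)
    (habs : ρbar.IsAbsolutelyIrreducible)
    (h𝒟 : GaloisRep.IsDeformationCondition 𝒪 𝒟)
    (hbar : 𝒟 (GaloisRepAdic.ofResidualGaloisRep ρbar))
    (hfin : GaloisRep.TangentFinite 𝒪 ρbar 𝒟) :
    Nonempty (GaloisRep.DeformationRingData 𝒪 ρbar 𝒟) := by
  obtain ⟨D⟩ := exists_rigidData ρbar habs
  obtain ⟨R, _, _, _, _, _, _, hsurj, ρu, hu, huniv⟩ := exists_artUniv D h𝒟 hfin hbar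
  exact CompleteLift.nonempty_deformationRingData habs h𝒟 D
    (fun φ hφ r hr => ofMat_baseChangeAlong_isEquiv φ hφ r hr)
    (fun r hr h => residual_isEquiv_of_liftsC D r hr h)
    (fun _ ρA h => Glue.exists_normalized_of_lift D ρA (exists_liftsC_of_residual_isEquiv D ρA h))
    (fun r r' hr hr' h1 h2 h1' h2' h =>
      Glue.eq_of_normalized_of_isEquiv D r r' hr hr' h1 h2 h1' h2' h)
    R hsurj ρu hu.cont hu.lifts hu.norm hu.isD
    (fun B _ _ _ hB r hr hl hn hd => huniv B hB r ⟨hr, hl, hn, hd⟩)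

end Fermat.Agent.S53
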