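import Fermat.Statements.S57
import Fermat.Agent.S57.PowerSeriesRegular
import Fermat.Agent.S57.Transfer
import Fermat.Agent.S57.RegularFree
import Fermat.Agent.S57.Endgame

set_option autoImplicit false
open Algebra Algebra.PatchingLevel

namespace Fermat.Agent.S57

theorem result
    {𝒪 : Type} [CommRing 𝒪] [IsDomain 𝒪] [IsDiscreteValuationRing 𝒪]
    {r : ℕ} {R : Type} [CommRing R] [Algebra 𝒪 R]
    {M : Type} [AddCommGroup M] [Module R M] [Nontrivial M]
    (L : Algebra.PatchingLevel 𝒪 r R M ⊥) :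
    Module.Free R M ∧ Module.annihilator R M = ⊥ ∧
      RingHom.ker L.ψ = Ideal.span (Set.range fun i : Fin r => L.φ (MvPowerSeries.X i)) := by
  obtain ⟨xs, hreg, hmax, -⟩ := exists_regular_mvPowerSeries 𝒪 r
  have : Module.Finite (MvPowerSeries (Fin r) 𝒪) L.N := level_finite L
  have hys := level_isWeaklyRegular L xs hreg
  have hmem : ∀ y ∈ xs.map L.φ, y ∈ IsLocalRing.maximalIdeal (MvPowerSeries (Fin r) 𝒪) := by
    intro y hy
    obtain ⟨x, hx, rfl⟩ := List.mem_map.1 hy
    refine algHom_mem_maximalIdeal L.φ ?_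
    rw [← hmax]
    exact Ideal.subset_span hx
  have : Module.Free (MvPowerSeries (Fin r) 𝒪) L.N :=
    free_of_isWeaklyRegular xs hreg hmax L.N (xs.map L.φ) hys hmem (by simp)
  exact endgame_of_free (L.ψ : MvPowerSeries (Fin r) 𝒪 →+* R) L.ψ_surjective
    (Ideal.span (Set.range fun i : Fin r => L.φ (MvPowerSeries.X i)))
    (by
      rw [Ideal.span_le]
      rintro _ ⟨i, rfl⟩
      exact L.ψ_φ_X i)
    L.π L.π_smul L.π_surjective L.ker_π

end Fermat.Agent.S57
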